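import Mathlib

/-!
# PROJECT H (S18), block C3: purity in dimension two, part 1 — the normalisation is free

Pure commutative algebra (Mathlib only).

Let `B` be an integrally closed domain, `x : B` a prime element, `L` a field containing `B`.

* `isIntegral_div_of_smul_eq_smul` : if `γ, γ' : L` are integral over `B`, `b • γ = x • γ'` and
  `x ∤ b`, then `γ / x` is integral over `B` (no Krull-domain theory: only the behaviour of
  minimal polynomials under scaling).
-/

set_option autoImplicit false
set_option linter.unusedSectionVars false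
set_option linter.style.haveILetI false

open Polynomial Submodule

namespace Fermat.Agent.S18.Purity

section Core

variable {B : Type*} [CommRing B] [IsDomain B]

/-- A prime `x` not dividing `b` and `x ^ k ∣ a * b ^ k` give `x ^ k ∣ a`. -/
theorem pow_dvd_of_pow_dvd_mul_pow {x a b : B} (hx : Prime x) (hb : ¬ x ∣ b) (k : ℕ)
    (h : x ^ k ∣ a * b ^ k) : x ^ k ∣ a :=
  hx.pow_dvd_of_dvd_mul_right k (fun h' => hb (hx.dvd_of_dvd_pow h')) h

variable [IsIntegrallyClosed B]
variable {L : Type*} [Field L] [Algebra B L] [FaithfulSMul B L]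

/-- **Core of the torsion-freeness of `C / x C`.** If `γ`, `γ'` are integral over the integrally
closed domain `B`, `b • γ = x • γ'` with `x` prime and `x ∤ b`, then `γ = x • u` with `u`
integral over `B`. -/
theorem exists_isIntegral_smul_eq {x b : B} (hx : Prime x) (hb : ¬ x ∣ b) {γ γ' : L}
    (hγ : IsIntegral B γ) (hγ' : IsIntegral B γ') (h : b • γ = x • γ') :
    ∃ u : L, IsIntegral B u ∧ γ = x • u := by
  have hx0 : x ≠ 0 := hx.ne_zero
  have hb0 : b ≠ 0 := fun h0 => hb (h0 ▸ dvd_zero x)
  have hxL : algebraMap B L x ≠ 0 := by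
    rw [Ne, FaithfulSMul.algebraMap_eq_zero_iff]; exact hx0
  set P := minpoly B γ with hP
  set P' := minpoly B γ' with hP'
  have hscale : P.scaleRoots b = P'.scaleRoots x := by
    rw [hP, hP', ← IsIntegrallyClosed.minpoly_smul hb0 hγ, ← IsIntegrallyClosed.minpoly_smul hx0 hγ',
      h]
  have hdeg : P.natDegree = P'.natDegree := by
    have := congrArg natDegree hscale
    rwa [natDegree_scaleRoots, natDegree_scaleRoots] at this
  set n := P.natDegree with hn
  have hcoeff : ∀ i, x ^ (n - i) ∣ P.coeff i := by
    intro i
    have hi := congrArg (fun q => q.coeff i) hscale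
    simp only [coeff_scaleRoots] at hi
    rw [← hdeg] at hi
    refine pow_dvd_of_pow_dvd_mul_pow hx hb (n - i) ?_
    rw [hi]
    exact Dvd.intro_left _ rfl
  choose q hq using hcoeff
  have hPm : P.Monic := minpoly.monic hγ
  -- the monic polynomial killing `γ / x`
  set Q : B[X] := X ^ n + ∑ i : Fin n, C (q i) * X ^ (i : ℕ) with hQ
  have hQm : Q.Monic := monic_X_pow_add (degree_sum_fin_lt fun i : Fin n => q i)
  obtain ⟨u, hxu⟩ : ∃ u : L, algebraMap B L x * u = γ :=
    ⟨(algebraMap B L x)⁻¹ * γ, by rw [← mul_assoc, mul_inv_cancel₀ hxL, one_mul]⟩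
  have hγu : γ = x • u := by rw [Algebra.smul_def, hxu]
  refine ⟨u, ⟨Q, hQm, ?_⟩, hγu⟩
  -- `x ^ n * Q(u) = P(γ) = 0`
  have hPγ : aeval γ P = 0 := minpoly.aeval B γ
  rw [hPm.as_sum, ← hn] at hPγ
  simp only [map_add, map_pow, aeval_X, map_sum, map_mul, aeval_C] at hPγ
  have hkey : (algebraMap B L x) ^ n * eval₂ (algebraMap B L) u Q = 0 := by
    rw [hQ]
    simp only [eval₂_add, eval₂_pow, eval₂_X, eval₂_finsetSum, eval₂_mul, eval₂_C]
    rw [← hPγ, mul_add, ← mul_pow, Finset.mul_sum, hxu]
    congr 1
    rw [← Fin.sum_univ_eq_sum_range (fun i => algebraMap B L (P.coeff i) * γ ^ i) n]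
    refine Finset.sum_congr rfl fun i _ => ?_
    have hi : n - (i : ℕ) + (i : ℕ) = n := Nat.sub_add_cancel i.2.le
    rw [hq i, map_mul, map_pow, ← hxu, mul_pow]
    calc algebraMap B L x ^ n * (algebraMap B L (q i) * u ^ (i : ℕ))
        = algebraMap B L x ^ (n - (i : ℕ) + (i : ℕ)) * (algebraMap B L (q i) * u ^ (i : ℕ)) := by
          rw [hi]
      _ = algebraMap B L x ^ (n - (i : ℕ)) * algebraMap B L (q i) *
            (algebraMap B L x ^ (i : ℕ) * u ^ (i : ℕ)) := by
          rw [pow_add]; ring
  exact (mul_eq_zero.mp hkey).resolve_left (pow_ne_zero n hxL)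

end Core

section ModuleLemma

variable {B : Type*} [CommRing B] [IsNoetherianRing B] [IsLocalRing B]
variable {M : Type*} [AddCommGroup M] [Module B M] [Module.Finite B M]

/-- **Freeness criterion.** Let `B` be a noetherian local domain, `x` a prime element with `B ⧸ (x)`
a principal ideal ring, `M` a finite `B`-module on which `x` is regular and such that `M ⧸ x M` is
torsion-free over `B ⧸ (x)`. Then `M` is free. -/
theorem free_of_quotient_torsionFree (x : B) (hx : Prime x)
    [IsPrincipalIdealRing (B ⧸ Ideal.span {x})]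
    (hreg : ∀ m : M, x • m = 0 → m = 0)
    (htf : ∀ (b : B) (m : M), ¬ x ∣ b →
      b • m ∈ (Ideal.span {x} • ⊤ : Submodule B M) → m ∈ (Ideal.span {x} • ⊤ : Submodule B M)) :
    Module.Free B M := by
  classical
  set I : Ideal B := Ideal.span {x} with hI
  have hIprime : I.IsPrime := (Ideal.span_singleton_prime hx.ne_zero).mpr hx
  have : IsDomain (B ⧸ I) := Ideal.Quotient.isDomain I
  have hItop : I ≠ ⊤ := hIprime.ne_top
  -- the quotient module
  let Mbar := M ⧸ (I • ⊤ : Submodule B M)
  have : Module.Finite (B ⧸ I) Mbar := Module.Finite.of_restrictScalars_finite B (B ⧸ I) Mbar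
  have hmem : ∀ b : B, Ideal.Quotient.mk I b = 0 ↔ x ∣ b := fun b => by
    rw [Ideal.Quotient.eq_zero_iff_mem, hI, Ideal.mem_span_singleton]
  have : Module.IsTorsionFree (B ⧸ I) Mbar := by
    refine ⟨fun r hr => ?_⟩
    obtain ⟨b, rfl⟩ := Ideal.Quotient.mk_surjective r
    have hb : ¬ x ∣ b := fun h => hr.ne_zero ((hmem b).mpr h)
    intro m₁ m₂ h
    obtain ⟨m₁, rfl⟩ := Submodule.Quotient.mk_surjective _ m₁
    obtain ⟨m₂, rfl⟩ := Submodule.Quotient.mk_surjective _ m₂
    have h' : Submodule.Quotient.mk (p := (I • ⊤ : Submodule B M)) (b • m₁) =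
        Submodule.Quotient.mk (p := (I • ⊤ : Submodule B M)) (b • m₂) := h
    rw [Submodule.Quotient.eq, ← smul_sub] at h'
    rw [Submodule.Quotient.eq]
    exact htf b _ hb h'
  have : Module.Free (B ⧸ I) Mbar := Module.free_of_finite_type_torsion_free'
  let ι := Module.Free.ChooseBasisIndex (B ⧸ I) Mbar
  let ebar : Module.Basis ι (B ⧸ I) Mbar := Module.Free.chooseBasis (B ⧸ I) Mbar
  haveI : Fintype ι := Module.Free.ChooseBasisIndex.fintype (B ⧸ I) Mbar
  -- lift the basis
  have hsurj : ∀ i : ι, ∃ m : M, Submodule.Quotient.mk (p := (I • ⊤ : Submodule B M)) m = ebar i :=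
    fun i => Submodule.Quotient.mk_surjective _ (ebar i)
  choose e he using hsurj
  -- reduction of a linear combination
  have hred : ∀ g : ι → B, Submodule.Quotient.mk (p := (I • ⊤ : Submodule B M)) (∑ i, g i • e i) =
      ∑ i, Ideal.Quotient.mk I (g i) • ebar i := by
    intro g
    rw [← Submodule.mkQ_apply, map_sum]
    refine Finset.sum_congr rfl fun i _ => ?_
    rw [Submodule.mkQ_apply, ← he i]
    rfl
  -- the lifts generate
  have hspan : (⊤ : Submodule B M) ≤ Submodule.span B (Set.range e) := by
    refine Submodule.le_of_le_smul_of_le_jacobson_bot (I := I) (Module.Finite.fg_top) ?_ ?_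
    · rw [IsLocalRing.jacobson_eq_maximalIdeal ⊥ bot_ne_top]
      exact IsLocalRing.le_maximalIdeal hItop
    · intro m _
      obtain ⟨g, hg⟩ : ∃ g : ι → B, Submodule.Quotient.mk (p := (I • ⊤ : Submodule B M)) m =
          ∑ i, Ideal.Quotient.mk I (g i) • ebar i := by
        have h1 := ebar.sum_repr (Submodule.Quotient.mk (p := (I • ⊤ : Submodule B M)) m)
        have hs : ∀ i : ι, ∃ b : B, Ideal.Quotient.mk I b =
            ebar.repr (Submodule.Quotient.mk (p := (I • ⊤ : Submodule B M)) m) i :=
          fun i => Ideal.Quotient.mk_surjective _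
        choose g hg using hs
        exact ⟨g, by rw [← h1]; exact Finset.sum_congr rfl fun i _ => by rw [hg i]⟩
      rw [← hred g, Submodule.Quotient.eq] at hg
      have : m = ∑ i, g i • e i + (m - ∑ i, g i • e i) := by abel
      rw [this]
      refine Submodule.add_mem_sup ?_ hg
      exact Submodule.sum_mem _ fun i _ =>
        Submodule.smul_mem _ _ (Submodule.subset_span (Set.mem_range_self i))
  -- divisibility by all powers of `x`
  have hdiv : ∀ n : ℕ, ∀ g : ι → B, ∑ i, g i • e i = 0 → ∀ i, x ^ n ∣ g i := by
    intro n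
    induction n with
    | zero => intro g _ i; simp
    | succ n ih =>
      intro g hg i
      -- first `x ∣ g j` for all `j`
      have h1 : ∀ j, x ∣ g j := by
        intro j
        have h0 := hred g
        rw [hg, Submodule.Quotient.mk_zero] at h0
        have := (Fintype.linearIndependent_iff.mp ebar.linearIndependent) _ h0.symm j
        exact (hmem _).mp this
      choose g' hg' using h1
      have h2 : x • ∑ j, g' j • e j = 0 := by
        rw [Finset.smul_sum, ← hg]
        refine Finset.sum_congr rfl fun j _ => ?_
        rw [smul_smul, ← hg' j]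
      have h3 := ih g' (hreg _ h2) i
      rw [hg' i, pow_succ']
      exact mul_dvd_mul_left x h3
  have hli : LinearIndependent B e := by
    rw [Fintype.linearIndependent_iff]
    intro g hg i
    have hmemI : g i ∈ ⨅ n : ℕ, I ^ n := by
      rw [Ideal.mem_iInf]
      intro n
      rw [hI, Ideal.span_singleton_pow, Ideal.mem_span_singleton]
      exact hdiv n g hg i
    rw [Ideal.iInf_pow_eq_bot_of_isLocalRing I hItop] at hmemI
    exact hmemI
  exact Module.Free.of_basis (Module.Basis.mk hli hspan)

end ModuleLemma

section Main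

variable {B : Type*} [CommRing B] [IsDomain B] [IsIntegrallyClosed B] [IsNoetherianRing B]
  [IsLocalRing B]
variable (K L : Type*) [Field K] [Field L] [Algebra B K] [IsFractionRing B K] [Algebra K L]
  [Algebra B L] [IsScalarTower B K L] [FiniteDimensional K L] [Algebra.IsSeparable K L]
variable (C : Type*) [CommRing C] [Algebra B C] [Algebra C L] [IsScalarTower B C L]
  [IsIntegralClosure C B L]

include K in
/-- `B → L` is injective. -/
theorem faithfulSMul_of_tower : FaithfulSMul B L := by
  rw [faithfulSMul_iff_algebraMap_injective, IsScalarTower.algebraMap_eq B K L]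
  exact (algebraMap K L).injective.comp (IsFractionRing.injective B K)

omit [IsDomain B] [IsIntegrallyClosed B] [IsNoetherianRing B] [IsLocalRing B] in
/-- The map `C → L` is `B`-semilinear. -/
theorem algebraMap_smul_tower (b : B) (c : C) :
    algebraMap C L (b • c) = b • algebraMap C L c := by
  rw [Algebra.smul_def, map_mul, ← IsScalarTower.algebraMap_apply, Algebra.smul_def]

include K L in
/-- Multiplication by a nonzero element of `B` is injective on the integral closure. -/
theorem smul_eq_zero_imp (x : B) (hx : x ≠ 0) (c : C) (h : x • c = 0) : c = 0 := by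
  have := faithfulSMul_of_tower (B := B) K L
  apply IsIntegralClosure.algebraMap_injective C B L
  have h' := congrArg (algebraMap C L) h
  rw [algebraMap_smul_tower, Algebra.smul_def, map_zero] at h'
  rw [map_zero]
  refine (mul_eq_zero.mp h').resolve_left fun h0 => hx ?_
  exact (FaithfulSMul.algebraMap_eq_zero_iff B L).mp h0

include K L in
/-- **`C ⧸ x C` is torsion-free over `B ⧸ (x)`** for a prime element `x` of the integrally closed
domain `B` and the integral closure `C` of `B` in `L`. -/
theorem mem_smul_top_of_smul_mem (x : B) (hx : Prime x) (b : B) (c : C) (hb : ¬ x ∣ b)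
    (h : b • c ∈ (Ideal.span {x} • ⊤ : Submodule B C)) :
    c ∈ (Ideal.span {x} • ⊤ : Submodule B C) := by
  have := faithfulSMul_of_tower (B := B) K L
  rw [Submodule.ideal_span_singleton_smul, Submodule.mem_smul_pointwise_iff_exists] at h ⊢
  obtain ⟨c', -, hc'⟩ := h
  have hγ : IsIntegral B (algebraMap C L c) :=
    (IsIntegralClosure.isIntegral_iff (A := C)).mpr ⟨c, rfl⟩
  have hγ' : IsIntegral B (algebraMap C L c') :=
    (IsIntegralClosure.isIntegral_iff (A := C)).mpr ⟨c', rfl⟩
  have hrel : b • algebraMap C L c = x • algebraMap C L c' := by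
    rw [← algebraMap_smul_tower, ← algebraMap_smul_tower, hc']
  obtain ⟨u, hu, hγu⟩ := exists_isIntegral_smul_eq hx hb hγ hγ' hrel
  obtain ⟨c'', rfl⟩ := (IsIntegralClosure.isIntegral_iff (A := C)).mp hu
  refine ⟨c'', Submodule.mem_top, ?_⟩
  apply IsIntegralClosure.algebraMap_injective C B L
  rw [hγu, algebraMap_smul_tower]

include K L in
/-- **(P1) The normalisation is free.** Let `B` be a noetherian local integrally closed domain with
a prime element `x` such that `B ⧸ (x)` is a principal ideal ring (e.g. a regular local ring of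
dimension two, `x` a regular parameter). Let `L` be a finite separable extension of `K = Frac B`
and `C` the integral closure of `B` in `L`. Then `C` is a free `B`-module. -/
theorem free_integralClosure (x : B) (hx : Prime x)
    [IsPrincipalIdealRing (B ⧸ Ideal.span {x})] : Module.Free B C := by
  have : Module.Finite B C := IsIntegralClosure.finite B K L C
  exact free_of_quotient_torsionFree x hx (smul_eq_zero_imp K L C x hx.ne_zero)
    (fun b c hb h => mem_smul_top_of_smul_mem K L C x hx b c hb h)

/-- The rank of the free normalisation is the degree of the field extension. -/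
theorem finrank_integralClosure (x : B) (hx : Prime x)
    [IsPrincipalIdealRing (B ⧸ Ideal.span {x})] :
    Module.finrank B C = Module.finrank K L := by
  have : Module.Finite B C := IsIntegralClosure.finite B K L C
  have : Module.Free B C := free_integralClosure K L C x hx
  have : IsLocalization (Algebra.algebraMapSubmonoid C (nonZeroDivisors B)) L :=
    IsIntegralClosure.isLocalization B K L C
  let b := Module.Basis.localizationLocalization K (nonZeroDivisors B) L
    (Module.Free.chooseBasis B C)
  rw [Module.finrank_eq_card_chooseBasisIndex, Module.finrank_eq_card_basis b]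

end Main

end Fermat.Agent.S18.Purity
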