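import Mathlib
import Fermat.Agent.S18.Purity.FreeNormalization

/-!
# The two-dimensional regular local ring `W[X]_(𝔪_W, X)`

Instance file for block C3 (purity): for a local domain `W` (in the application a discrete
valuation ring with uniformiser `l`) the localisation `B` of `W[X]` at the maximal ideal
`closedPoint W = {p | p(0) ∈ 𝔪_W}` (`= (l, X)`) satisfies all hypotheses of
`Fermat.Agent.S18.Purity.free_integralClosure` with `x = X`.
-/

namespace Fermat.Agent.S18.Purity

open Polynomial

section RegularLocal

variable (W : Type*) [CommRing W] [IsLocalRing W]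

/-- The closed point of the affine line over a local ring `W`: polynomials whose constant
coefficient lies in the maximal ideal (`= (l, X)` for a discrete valuation ring with
uniformiser `l`, see `closedPoint_eq_span`). -/
noncomputable def closedPoint : Ideal W[X] :=
  (IsLocalRing.maximalIdeal W).comap (constantCoeff : W[X] →+* W)

instance closedPoint_isPrime : (closedPoint W).IsPrime :=
  Ideal.comap_isPrime _ _

variable {W}

theorem mem_closedPoint {p : W[X]} : p ∈ closedPoint W ↔ ¬ IsUnit (p.coeff 0) := by
  simp [closedPoint, Ideal.mem_comap]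

theorem X_mem_closedPoint : (X : W[X]) ∈ closedPoint W := by
  simp [mem_closedPoint]

theorem C_mem_closedPoint {w : W} : C w ∈ closedPoint W ↔ ¬ IsUnit w := by
  simp [mem_closedPoint]

theorem closedPoint_eq_span [IsDomain W] {l : W}
    (hl : IsLocalRing.maximalIdeal W = Ideal.span {l}) :
    closedPoint W = Ideal.span {C l, X} := by
  apply le_antisymm
  · intro p hp
    have h0 : p.coeff 0 ∈ Ideal.span {l} := by
      rw [← hl]; simpa [closedPoint, Ideal.mem_comap] using hp
    obtain ⟨c, hc⟩ := Ideal.mem_span_singleton'.mp h0
    rw [← X_mul_divX_add p, ← hc]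
    refine Ideal.add_mem _ ?_ ?_
    · exact Ideal.mul_mem_right _ _ (Ideal.subset_span (by simp))
    · rw [C_mul]
      exact Ideal.mul_mem_left _ _ (Ideal.subset_span (by simp))
  · rw [Ideal.span_le]
    rintro p (rfl | rfl)
    · rw [SetLike.mem_coe, C_mem_closedPoint, ← mem_nonunits_iff, ← IsLocalRing.mem_maximalIdeal, hl]
      exact Ideal.mem_span_singleton_self l
    · exact X_mem_closedPoint

variable (W)
variable (B : Type*) [CommRing B] [Algebra W[X] B] [IsLocalization.AtPrime B (closedPoint W)]

/-- Evaluation at the closed point's section `X = 0`: the ring homomorphism `B → W`. -/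
noncomputable def evalZero : B →+* W :=
  IsLocalization.lift (M := (closedPoint W).primeCompl) (g := (constantCoeff : W[X] →+* W))
    (fun y => by
      have := y.2
      rw [Ideal.mem_primeCompl_iff, mem_closedPoint, not_not] at this
      simpa using this)

variable {W}

@[simp] theorem evalZero_algebraMap (p : W[X]) :
    evalZero W B (algebraMap W[X] B p) = p.coeff 0 := by
  simp [evalZero]

theorem evalZero_surjective : Function.Surjective (evalZero W B) := fun w =>
  ⟨algebraMap W[X] B (C w), by simp⟩

theorem ker_evalZero : RingHom.ker (evalZero W B) = Ideal.span {algebraMap W[X] B X} := by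
  apply le_antisymm
  · intro b hb
    obtain ⟨p, s, rfl⟩ := IsLocalization.exists_mk'_eq (closedPoint W).primeCompl b
    rw [RingHom.mem_ker, evalZero, IsLocalization.lift_mk'_spec] at hb
    simp only [constantCoeff_apply, mul_zero] at hb
    obtain ⟨q, rfl⟩ := X_dvd_iff.mpr hb
    rw [Ideal.mem_span_singleton]
    refine ⟨IsLocalization.mk' B q s, ?_⟩
    rw [← IsLocalization.mul_mk'_eq_mk'_of_mul]
  · rw [Ideal.span_le]
    rintro _ rfl
    simp [RingHom.mem_ker]

theorem primeCompl_le_nonZeroDivisors [IsDomain W] :
    (closedPoint W).primeCompl ≤ nonZeroDivisors W[X] := fun _ hp =>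
  mem_nonZeroDivisors_of_ne_zero fun h => hp (h ▸ (closedPoint W).zero_mem)

theorem algebraMap_injective [IsDomain W] : Function.Injective (algebraMap W[X] B) :=
  IsLocalization.injective B (primeCompl_le_nonZeroDivisors (W := W))

section
variable (W)
include W

theorem isDomain [IsDomain W] : IsDomain B :=
  IsLocalization.isDomain_of_le_nonZeroDivisors B (primeCompl_le_nonZeroDivisors (W := W))

theorem isLocalRing : IsLocalRing B :=
  IsLocalization.AtPrime.isLocalRing B (closedPoint W)

theorem isNoetherianRing [IsNoetherianRing W] : IsNoetherianRing B :=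
  IsLocalization.isNoetherianRing (closedPoint W).primeCompl B inferInstance

theorem isIntegrallyClosed [IsDomain W] [IsIntegrallyClosed W] : IsIntegrallyClosed B :=
  isIntegrallyClosed_of_isLocalization B (closedPoint W).primeCompl
    (primeCompl_le_nonZeroDivisors (W := W))

theorem uniqueFactorizationMonoid [IsDomain W] [UniqueFactorizationMonoid W] :
    UniqueFactorizationMonoid B :=
  UniqueFactorizationMonoid.of_isLocalization (closedPoint W).primeCompl B

end

/-- `X` is a prime element of `B` (for `W` a local domain). -/
theorem prime_X [IsDomain W] : Prime (algebraMap W[X] B X) := by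
  have hne : algebraMap W[X] B X ≠ 0 := fun h =>
    X_ne_zero (algebraMap_injective B (by rw [h, map_zero]))
  rw [← Ideal.span_singleton_prime hne, ← ker_evalZero]
  exact RingHom.ker_isPrime _

/-- `B ⧸ (X) ≃ W`. -/
noncomputable def quotXEquiv : (B ⧸ Ideal.span {algebraMap W[X] B X}) ≃+* W :=
  (Ideal.quotEquivOfEq (ker_evalZero B).symm).trans
    (RingHom.quotientKerEquivOfSurjective (evalZero_surjective B))

theorem isPrincipalIdealRing_quotX [IsPrincipalIdealRing W] :
    IsPrincipalIdealRing (B ⧸ Ideal.span {algebraMap W[X] B X}) :=
  IsPrincipalIdealRing.of_surjective (quotXEquiv B).symm.toRingHom (quotXEquiv B).symm.surjective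

/-- A prime element of `W` which is not a unit stays prime in `B`. -/
theorem prime_C [IsDomain W] {l : W} (hl : Prime l) : Prime (algebraMap W[X] B (C l)) := by
  refine (IsLocalization.toLocalizationMap (closedPoint W).primeCompl B).map_prime
    (prime_C_iff.mpr hl) ?_ ?_
  · intro h
    exact hl.ne_zero (C_eq_zero.mp (algebraMap_injective B (by rw [map_zero]; exact h)))
  · intro h
    have := (IsLocalization.AtPrime.isUnit_to_map_iff B (closedPoint W) (C l)).mp h
    exact this (C_mem_closedPoint.mpr hl.not_isUnit)

/-- The maximal ideal of `B` is generated by `l` and `X`. -/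
theorem maximalIdeal_eq_span [IsDomain W] {l : W}
    (hmax : IsLocalRing.maximalIdeal W = Ideal.span {l})
    (h : IsLocalRing B := isLocalRing W B) :
    IsLocalRing.maximalIdeal B =
      Ideal.span {algebraMap W[X] B (C l), algebraMap W[X] B X} := by
  rw [← IsLocalization.AtPrime.map_eq_maximalIdeal (closedPoint W) B, closedPoint_eq_span hmax,
    Ideal.map_span]
  congr 1
  simp [Set.image_pair]

/-- `l` does not divide `X` in `B`. -/
theorem not_C_dvd_X [IsDomain W] {l : W} (hl : Prime l) :
    ¬ algebraMap W[X] B (C l) ∣ algebraMap W[X] B X := by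
  intro hdvd
  have := isDomain W B
  have hassoc : Associated (algebraMap W[X] B (C l)) (algebraMap W[X] B X) :=
    (prime_C B hl).associated_of_dvd (prime_X B) hdvd
  obtain ⟨c, hc⟩ := hassoc.symm.dvd
  have := congrArg (evalZero W B) hc
  rw [map_mul, evalZero_algebraMap, evalZero_algebraMap] at this
  simp only [coeff_C_zero, coeff_X_zero, zero_mul] at this
  exact hl.ne_zero this

/-- For a discrete valuation ring `W` with uniformiser `l`, the quotient `B ⧸ (l)` is a discrete
valuation ring whose maximal ideal is generated by the class of `X`. -/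
theorem isDiscreteValuationRing_quotC [IsDomain W] [IsNoetherianRing W] {l : W} (hl : Prime l)
    (hmax : IsLocalRing.maximalIdeal W = Ideal.span {l}) :
    ∃ (_ : IsDomain (B ⧸ Ideal.span {algebraMap W[X] B (C l)})),
      IsDiscreteValuationRing (B ⧸ Ideal.span {algebraMap W[X] B (C l)}) ∧
      Irreducible (Ideal.Quotient.mk (Ideal.span {algebraMap W[X] B (C l)})
        (algebraMap W[X] B X)) := by
  have hB := isDomain W B
  have hloc := isLocalRing W B
  have hnoeth := isNoetherianRing W B
  set I : Ideal B := Ideal.span {algebraMap W[X] B (C l)} with hI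
  have hpC := prime_C B hl
  have hIprime : I.IsPrime := (Ideal.span_singleton_prime hpC.ne_zero).mpr hpC
  have hdom : IsDomain (B ⧸ I) := Ideal.Quotient.isDomain I
  have hlocD : IsLocalRing (B ⧸ I) :=
    IsLocalRing.of_surjective' (Ideal.Quotient.mk I) Ideal.Quotient.mk_surjective
  have hlochom : IsLocalHom (Ideal.Quotient.mk I) :=
    IsLocalHom.of_surjective _ Ideal.Quotient.mk_surjective
  have hmaxD : IsLocalRing.maximalIdeal (B ⧸ I) =
      Ideal.span {Ideal.Quotient.mk I (algebraMap W[X] B X)} := by
    rw [← Ideal.map_comap_of_surjective (Ideal.Quotient.mk I) Ideal.Quotient.mk_surjective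
      (IsLocalRing.maximalIdeal (B ⧸ I)), IsLocalRing.maximalIdeal_comap,
      maximalIdeal_eq_span B hmax, Ideal.map_span, Set.image_pair]
    have : Ideal.Quotient.mk I (algebraMap W[X] B (C l)) = 0 :=
      Ideal.Quotient.eq_zero_iff_mem.mpr (Ideal.mem_span_singleton_self _)
    rw [this]
    apply le_antisymm
    · rw [Ideal.span_le]
      rintro x (rfl | rfl)
      · exact Ideal.zero_mem _
      · exact Ideal.mem_span_singleton_self _
    · exact Ideal.span_mono (by simp)
  have hXne : Ideal.Quotient.mk I (algebraMap W[X] B X) ≠ 0 := by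
    rw [Ne, Ideal.Quotient.eq_zero_iff_mem, hI, Ideal.mem_span_singleton]
    exact not_C_dvd_X B hl
  have hnotfield : ¬ IsField (B ⧸ I) := by
    rw [IsLocalRing.isField_iff_maximalIdeal_eq, hmaxD, Ideal.span_singleton_eq_bot]
    exact hXne
  have hprinc : (IsLocalRing.maximalIdeal (B ⧸ I)).IsPrincipal := ⟨⟨_, hmaxD⟩⟩
  have hdvr : IsDiscreteValuationRing (B ⧸ I) :=
    ((IsDiscreteValuationRing.TFAE (B ⧸ I) hnotfield).out 0 4).mpr hprinc
  exact ⟨hdom, hdvr, (IsDiscreteValuationRing.irreducible_iff_uniformizer _).mpr hmaxD⟩

end RegularLocal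

section Application

/-- **(P1) for `B = W[X]_(l, X)`**: the normalisation of `B` in a finite separable extension of
its fraction field is a free `B`-module of rank the degree of the field extension. -/
theorem free_integralClosure_regularLocal (W : Type*) [CommRing W] [IsDomain W]
    [IsDiscreteValuationRing W]
    (B : Type*) [CommRing B] [Algebra W[X] B] [IsLocalization.AtPrime B (closedPoint W)]
    (K L : Type*) [Field K] [Field L] [Algebra B K] [IsFractionRing B K] [Algebra K L]
    [Algebra B L] [IsScalarTower B K L] [FiniteDimensional K L] [Algebra.IsSeparable K L]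
    (C : Type*) [CommRing C] [Algebra B C] [Algebra C L] [IsScalarTower B C L]
    [IsIntegralClosure C B L] :
    Module.Free B C ∧ Module.finrank B C = Module.finrank K L := by
  have := isDomain W B
  have := isLocalRing W B
  have := isNoetherianRing W B
  have := isIntegrallyClosed W B
  have := isPrincipalIdealRing_quotX (W := W) B
  exact ⟨free_integralClosure K L C (algebraMap W[X] B X) (prime_X B),
    finrank_integralClosure K L C (algebraMap W[X] B X) (prime_X B)⟩

end Application

end Fermat.Agent.S18.Purity
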