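import Mathlib

/-!
# PROJECT H (S18), block C3: purity in dimension two, part 2 — unit discriminants

Pure commutative algebra (Mathlib only).

* `isUnit_of_forall_prime_not_dvd` : in a unique factorisation domain a non-zero element with no
  prime divisor is a unit (this is "a unit in codimension one is a unit" for factorial rings);
* `isUnit_discr_of_forall_prime` : the discriminant of a basis is a unit as soon as no prime
  element divides it;
* `traceForm_nondegenerate_of_isUnit_discr` : a unit discriminant gives a nondegenerate trace form;
* `isReduced_of_traceForm_nondegenerate` : a finite-dimensional commutative algebra over a field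
  with nondegenerate trace form is reduced (the converse direction "étale" of Stacks 0BIL that
  is not in Mathlib);
* `isReduced_of_discr_ne_zero` : the same in terms of the discriminant of a basis.
-/

set_option autoImplicit false
set_option linter.unusedSectionVars false

open Polynomial

namespace Fermat.Agent.S18.Purity

section UFD

variable {B : Type*} [CommRing B] [IsDomain B] [UniqueFactorizationMonoid B]

/-- **Unit in codimension one ⇒ unit** (factorial case). -/
theorem isUnit_of_forall_prime_not_dvd {d : B} (hd : d ≠ 0) (h : ∀ p : B, Prime p → ¬ p ∣ d) :
    IsUnit d := by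
  by_contra hu
  obtain ⟨i, hi, hid⟩ := WfDvdMonoid.exists_irreducible_factor hu hd
  exact h i (UniqueFactorizationMonoid.irreducible_iff_prime.mp hi) hid

end UFD

section Discr

variable {B : Type*} [CommRing B] {C : Type*} [CommRing C] [Algebra B C]
variable {ι : Type*} [Fintype ι] [DecidableEq ι]

/-- A basis with unit discriminant has a nondegenerate trace form (over a domain). -/
theorem traceForm_nondegenerate_of_discr_ne_zero [IsDomain B] (b : Module.Basis ι B C)
    (hd : Algebra.discr B b ≠ 0) : (Algebra.traceForm B C).Nondegenerate := by
  refine LinearMap.BilinForm.nondegenerate_of_det_ne_zero (Algebra.traceForm B C) b ?_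
  rwa [← Algebra.traceMatrix_of_basis, ← Algebra.discr_def]

/-- The discriminant is non-zero iff the trace form is nondegenerate (over a domain). -/
theorem discr_ne_zero_iff_traceForm_nondegenerate [IsDomain B] (b : Module.Basis ι B C) :
    Algebra.discr B b ≠ 0 ↔ (Algebra.traceForm B C).Nondegenerate := by
  rw [LinearMap.BilinForm.nondegenerate_iff_det_ne_zero b, ← Algebra.traceMatrix_of_basis,
    ← Algebra.discr_def]

/-- **(P2)** Over a unique factorisation domain, the discriminant of a basis is a unit as soon as
it is non-zero and no prime element divides it. -/
theorem isUnit_discr_of_forall_prime [IsDomain B] [UniqueFactorizationMonoid B]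
    (b : Module.Basis ι B C) (h0 : Algebra.discr B b ≠ 0)
    (h : ∀ p : B, Prime p → ¬ p ∣ Algebra.discr B b) : IsUnit (Algebra.discr B b) :=
  isUnit_of_forall_prime_not_dvd h0 h

end Discr

section Reduced

variable {κ : Type*} [Field κ] {R : Type*} [CommRing R] [Algebra κ R] [FiniteDimensional κ R]

/-- The trace of a nilpotent element of a finite-dimensional algebra over a field vanishes. -/
theorem trace_eq_zero_of_isNilpotent {n : R} (hn : IsNilpotent n) : Algebra.trace κ R n = 0 := by
  rw [Algebra.trace_apply]
  have hnil : IsNilpotent (Algebra.lmul κ R n) := hn.map (Algebra.lmul κ R)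
  exact (LinearMap.isNilpotent_trace_of_isNilpotent hnil).eq_zero

/-- **(P3a)** A finite-dimensional commutative algebra over a field with nondegenerate trace form
is reduced. -/
theorem isReduced_of_traceForm_nondegenerate (h : (Algebra.traceForm κ R).Nondegenerate) :
    IsReduced R := by
  refine ⟨fun n hn => ?_⟩
  refine h.1 n fun a => ?_
  rw [Algebra.traceForm_apply]
  exact trace_eq_zero_of_isNilpotent ((Commute.all n a).isNilpotent_mul_right hn)

/-- (P3a) in terms of the discriminant of a basis. -/
theorem isReduced_of_discr_ne_zero {ι : Type*} [Fintype ι] [DecidableEq ι]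
    (b : Module.Basis ι κ R) (hd : Algebra.discr κ b ≠ 0) : IsReduced R :=
  isReduced_of_traceForm_nondegenerate (traceForm_nondegenerate_of_discr_ne_zero b hd)

end Reduced

end Fermat.Agent.S18.Purity
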