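import Mathlib
import Fermat.Agent.S18.Purity.FreeNormalization
import Fermat.Agent.S18.Purity.RegularLocal

/-!
# (P1) for a finite product of separable field extensions

`B` a noetherian local integrally closed domain with a prime element `x` such that `B ⧸ (x)` is a
principal ideal ring, `K = Frac B`, `L` a reduced finite-dimensional `K`-algebra all of whose
residue fields are separable over `K` (a finite étale `K`-algebra), `C` the integral closure of `B`
in `L`. Then `C` is a free `B`-module of rank `dim_K L`.
-/

namespace Fermat.Agent.S18.Purity

attribute [local instance] Ideal.Quotient.field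

section PiIntegral

variable {B : Type*} [CommRing B]

/-- An element of a finite product of algebras is integral as soon as all its components are. -/
theorem isIntegral_pi {ι : Type*} [Finite ι] {M : ι → Type*} [∀ i, CommRing (M i)]
    [∀ i, Algebra B (M i)] (y : ∀ i, M i) (h : ∀ i, IsIntegral B (y i)) : IsIntegral B y := by
  classical
  cases nonempty_fintype ι
  choose p hpm hp using h
  refine ⟨∏ i, p i, Polynomial.monic_prod_of_monic _ _ (fun i _ => hpm i), ?_⟩
  funext j
  have h1 : Polynomial.eval₂ (algebraMap B (∀ i, M i)) y (∏ i, p i) j =
      Polynomial.eval₂ (algebraMap B (M j)) (y j) (∏ i, p i) := by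
    have h2 := Polynomial.hom_eval₂ (∏ i, p i) (algebraMap B (∀ i, M i)) (Pi.evalRingHom M j) y
    have h3 : (Pi.evalRingHom M j).comp (algebraMap B (∀ i, M i)) = algebraMap B (M j) := by
      ext b; rfl
    rw [h3] at h2
    exact h2
  rw [h1, Polynomial.eval₂_finsetProd]
  exact Finset.prod_eq_zero (Finset.mem_univ j) (hp j)

end PiIntegral

section Factor

variable {B : Type*} [CommRing B] [IsDomain B] [IsIntegrallyClosed B] [IsNoetherianRing B]
  [IsLocalRing B]
variable (K : Type*) [Field K] [Algebra B K] [IsFractionRing B K]
variable (L : Type*) [CommRing L] [Algebra K L] [Algebra B L] [IsScalarTower B K L]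
  [Module.Finite K L]

/-- (P1) for one residue field of `L`. -/
theorem free_integralClosure_quotient (x : B) (hx : Prime x)
    [IsPrincipalIdealRing (B ⧸ Ideal.span {x})] (m : MaximalSpectrum L)
    [Algebra.IsSeparable K (L ⧸ m.asIdeal)] :
    Module.Free B (integralClosure B (L ⧸ m.asIdeal)) ∧
      Module.finrank B (integralClosure B (L ⧸ m.asIdeal)) = Module.finrank K (L ⧸ m.asIdeal) :=
  ⟨free_integralClosure K (L ⧸ m.asIdeal) (integralClosure B (L ⧸ m.asIdeal)) x hx,
    finrank_integralClosure K (L ⧸ m.asIdeal) (integralClosure B (L ⧸ m.asIdeal)) x hx⟩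

end Factor

section Main

variable {B : Type*} [CommRing B] [IsDomain B] [IsIntegrallyClosed B] [IsNoetherianRing B]
  [IsLocalRing B]
variable (K : Type*) [Field K] [Algebra B K] [IsFractionRing B K]
variable (L : Type*) [CommRing L] [Algebra K L] [Algebra B L] [IsScalarTower B K L]
  [Module.Finite K L] [IsReduced L]
variable (C : Type*) [CommRing C] [Algebra B C] [Algebra C L] [IsScalarTower B C L]
  [IsIntegralClosure C B L]

omit [IsDomain B] [IsIntegrallyClosed B] [IsNoetherianRing B] [IsLocalRing B] [IsReduced L] in
/-- The comparison map from the integral closure of `B` in `L` to the product of the integral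
closures in the residue fields of `L`. -/
noncomputable def toPiIntegralClosure :
    C →ₐ[B] ∀ m : MaximalSpectrum L, integralClosure B (L ⧸ m.asIdeal) :=
  AlgHom.pi fun m =>
    (((Ideal.Quotient.mkₐ B m.asIdeal).comp (IsScalarTower.toAlgHom B C L)).codRestrict
      (integralClosure B (L ⧸ m.asIdeal))
      (fun c => (IsIntegralClosure.isIntegral B L c).map
        ((Ideal.Quotient.mkₐ B m.asIdeal).comp (IsScalarTower.toAlgHom B C L))))

omit [IsDomain B] [IsIntegrallyClosed B] [IsNoetherianRing B] [IsLocalRing B] [IsReduced L] in
theorem toPiIntegralClosure_apply (c : C) (m : MaximalSpectrum L) :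
    ((toPiIntegralClosure L C c m : integralClosure B (L ⧸ m.asIdeal)) : L ⧸ m.asIdeal) =
      Ideal.Quotient.mk m.asIdeal (algebraMap C L c) := rfl

include K in
omit [IsDomain B] [IsIntegrallyClosed B] [IsNoetherianRing B] [IsLocalRing B]
  [IsFractionRing B K] [Algebra B K] [IsScalarTower B K L] in
theorem toPiIntegralClosure_bijective :
    Function.Bijective (toPiIntegralClosure (B := B) L C) := by
  have hart : IsArtinianRing L := IsArtinianRing.of_finite K L
  constructor
  · intro c c' h
    apply IsIntegralClosure.algebraMap_injective C B L
    apply (IsArtinianRing.equivPi L).injective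
    funext m
    rw [IsArtinianRing.equivPi_apply, IsArtinianRing.equivPi_apply,
      ← toPiIntegralClosure_apply (B := B) L C c m,
      ← toPiIntegralClosure_apply (B := B) L C c' m, h]
  · intro f
    set z : ∀ m : MaximalSpectrum L, L ⧸ m.asIdeal := fun m => (f m : L ⧸ m.asIdeal) with hz
    have hzint : IsIntegral B z := isIntegral_pi z fun m => (f m).2
    set e := (IsArtinianRing.equivPi L).restrictScalars B with he
    have hy : IsIntegral B (e.symm z) := hzint.map e.symm.toAlgHom
    refine ⟨IsIntegralClosure.mk' C (e.symm z) hy, ?_⟩
    funext m
    apply Subtype.ext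
    rw [toPiIntegralClosure_apply, IsIntegralClosure.algebraMap_mk' (R := B)]
    have : e (e.symm z) m = z m := by rw [AlgEquiv.apply_symm_apply]
    exact this

/-- **(P1) for finite étale algebras.** Let `B` be a noetherian local integrally closed domain
with a prime element `x` such that `B ⧸ (x)` is a principal ideal ring, `K = Frac B`, `L` a reduced
finite-dimensional `K`-algebra whose residue fields are separable over `K`, and `C` the integral
closure of `B` in `L`. Then `C` is a free `B`-module of rank `dim_K L`. -/
theorem free_integralClosure_pi (x : B) (hx : Prime x)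
    [IsPrincipalIdealRing (B ⧸ Ideal.span {x})]
    (hsep : ∀ m : MaximalSpectrum L, Algebra.IsSeparable K (L ⧸ m.asIdeal)) :
    Module.Free B C ∧ Module.finrank B C = Module.finrank K L := by
  classical
  have hart : IsArtinianRing L := IsArtinianRing.of_finite K L
  have hfin : Fintype (MaximalSpectrum L) := Fintype.ofFinite _
  let e : C ≃ₗ[B] ∀ m : MaximalSpectrum L, integralClosure B (L ⧸ m.asIdeal) :=
    LinearEquiv.ofBijective (toPiIntegralClosure (B := B) L C).toLinearMap
      (toPiIntegralClosure_bijective K L C)
  have hfree : ∀ m : MaximalSpectrum L, Module.Free B (integralClosure B (L ⧸ m.asIdeal)) :=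
    fun m => by
      have := hsep m
      exact (free_integralClosure_quotient K L x hx m).1
  have hfinite : ∀ m : MaximalSpectrum L, Module.Finite B (integralClosure B (L ⧸ m.asIdeal)) :=
    fun m => by
      have := hsep m
      exact IsIntegralClosure.finite B K (L ⧸ m.asIdeal) (integralClosure B (L ⧸ m.asIdeal))
  have hrank : ∀ m : MaximalSpectrum L,
      Module.finrank B (integralClosure B (L ⧸ m.asIdeal)) = Module.finrank K (L ⧸ m.asIdeal) :=
    fun m => by
      have := hsep m
      exact (free_integralClosure_quotient K L x hx m).2
  refine ⟨Module.Free.of_equiv e.symm, ?_⟩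
  rw [e.finrank_eq, Module.finrank_pi_fintype B,
    ((IsArtinianRing.equivPi L).restrictScalars K).toLinearEquiv.finrank_eq,
    Module.finrank_pi_fintype K]
  exact Finset.sum_congr rfl fun m _ => hrank m

/-- (P1) for reduced finite-dimensional algebras over a perfect fraction field (e.g. in
characteristic zero). -/
theorem free_integralClosure_pi_of_perfectField [PerfectField K] (x : B) (hx : Prime x)
    [IsPrincipalIdealRing (B ⧸ Ideal.span {x})] :
    Module.Free B C ∧ Module.finrank B C = Module.finrank K L :=
  free_integralClosure_pi K L C x hx fun _ => Algebra.IsAlgebraic.isSeparable_of_perfectField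

end Main

section Application

open Polynomial in
/-- **(P1) for `B = W[X]_(l, X)` and a finite étale algebra** over its fraction field. -/
theorem free_integralClosure_pi_regularLocal (W : Type*) [CommRing W] [IsDomain W]
    [IsDiscreteValuationRing W]
    (B : Type*) [CommRing B] [Algebra W[X] B] [IsLocalization.AtPrime B (closedPoint W)]
    (K : Type*) [Field K] [Algebra B K] [IsFractionRing B K]
    (L : Type*) [CommRing L] [Algebra K L] [Algebra B L] [IsScalarTower B K L]
    [Module.Finite K L] [IsReduced L]
    (C : Type*) [CommRing C] [Algebra B C] [Algebra C L] [IsScalarTower B C L]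
    [IsIntegralClosure C B L]
    (hsep : ∀ m : MaximalSpectrum L, Algebra.IsSeparable K (L ⧸ m.asIdeal)) :
    Module.Free B C ∧ Module.finrank B C = Module.finrank K L := by
  have := isDomain W B
  have := isLocalRing W B
  have := isNoetherianRing W B
  have := isIntegrallyClosed W B
  have := isPrincipalIdealRing_quotX (W := W) B
  exact free_integralClosure_pi K L C (algebraMap W[X] B X) (prime_X B) hsep

end Application

end Fermat.Agent.S18.Purity
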