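import Mathlib
import Fermat.Agent.S18.Purity.DiscUnit

/-!
# Finite free algebras with unit discriminant over a local ring (block C3, part (P3))

* a noetherian local ring whose maximal ideal is generated by a non-zero-divisor is a discrete
  valuation ring;
* for a finite free algebra `S` with unit discriminant over a local ring `D` the fibre
  `S ⧸ 𝔪_D S` is reduced, and `𝔫 S_𝔫 = 𝔪_D S_𝔫` for every maximal ideal `𝔫` of `S`;
* if `D` is a discrete valuation ring with uniformiser `t`, every `S_𝔫` is a discrete valuation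
  ring with uniformiser `t`, and every valuation subring of a field generated by the image of `S`
  which is centred over `t = 0` has maximal ideal generated by `t`.
-/

namespace Fermat.Agent.S18.Purity

open IsLocalRing

section LocalPrincipal

variable {R : Type*} [CommRing R] [IsLocalRing R] [IsNoetherianRing R] {t : R}

/-- In a noetherian local ring with principal maximal ideal `(t)`, every nonzero element is a
power of `t` times a unit. -/
theorem exists_eq_pow_mul_unit (hmax : maximalIdeal R = Ideal.span {t}) {x : R} (hx : x ≠ 0) :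
    ∃ (k : ℕ) (u : Rˣ), x = t ^ k * u := by
  classical
  have hkrull : ⨅ i : ℕ, maximalIdeal R ^ i = ⊥ :=
    Ideal.iInf_pow_eq_bot_of_isLocalRing _ (maximalIdeal.isMaximal R).ne_top
  have hex : ∃ k : ℕ, x ∉ maximalIdeal R ^ k := by
    by_contra hcon
    push Not at hcon
    have : x ∈ ⨅ i : ℕ, maximalIdeal R ^ i := by
      rw [Ideal.mem_iInf]; exact hcon
    rw [hkrull, Ideal.mem_bot] at this
    exact hx this
  have hk0 : Nat.find hex ≠ 0 := by
    intro h0
    have := Nat.find_spec hex
    rw [h0, pow_zero, Ideal.one_eq_top] at this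
    exact this Submodule.mem_top
  obtain ⟨k, hk⟩ := Nat.exists_eq_succ_of_ne_zero hk0
  have hmem : x ∈ maximalIdeal R ^ k := by
    by_contra hcon
    have := Nat.find_min' hex hcon
    omega
  have hnot : x ∉ maximalIdeal R ^ (k + 1) := by
    have := Nat.find_spec hex
    rwa [hk] at this
  rw [hmax, Ideal.span_singleton_pow, Ideal.mem_span_singleton] at hmem
  obtain ⟨u, rfl⟩ := hmem
  have hu : IsUnit u := by
    by_contra hu
    have : u ∈ maximalIdeal R := (mem_maximalIdeal u).mpr hu
    rw [hmax, Ideal.mem_span_singleton] at this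
    obtain ⟨w, rfl⟩ := this
    apply hnot
    rw [hmax, Ideal.span_singleton_pow, Ideal.mem_span_singleton]
    exact ⟨w, by ring⟩
  exact ⟨k, hu.unit, by simp⟩

/-- A noetherian local ring whose maximal ideal is generated by a non-zero-divisor is a domain. -/
theorem isDomain_of_maximalIdeal_eq_span (hmax : maximalIdeal R = Ideal.span {t})
    (ht : t ∈ nonZeroDivisors R) : IsDomain R := by
  have : NoZeroDivisors R := by
    refine ⟨fun {x y} hxy => ?_⟩
    by_contra hcon
    push Not at hcon
    obtain ⟨i, u, rfl⟩ := exists_eq_pow_mul_unit hmax hcon.1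
    obtain ⟨j, w, rfl⟩ := exists_eq_pow_mul_unit hmax hcon.2
    have h1 : t ^ (i + j) * ((u * w : Rˣ) : R) = 0 := by
      rw [← hxy, Units.val_mul]; ring
    have h2 : ((u * w : Rˣ) : R) = 0 :=
      (mul_left_mem_nonZeroDivisors_eq_zero_iff (pow_mem ht (i + j))).mp h1
    exact (u * w).ne_zero h2
  exact NoZeroDivisors.to_isDomain R

/-- A noetherian local ring whose maximal ideal is generated by a non-zero-divisor `t` is a
discrete valuation ring with uniformiser `t`. -/
theorem isDiscreteValuationRing_of_maximalIdeal_eq_span (hmax : maximalIdeal R = Ideal.span {t})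
    (ht : t ∈ nonZeroDivisors R) :
    ∃ (_ : IsDomain R), IsDiscreteValuationRing R ∧ Irreducible t := by
  have hdom := isDomain_of_maximalIdeal_eq_span hmax ht
  have hnotfield : ¬ IsField R := by
    rw [isField_iff_maximalIdeal_eq, hmax, Ideal.span_singleton_eq_bot]
    exact nonZeroDivisors.ne_zero ht
  have hprinc : (maximalIdeal R).IsPrincipal := ⟨⟨t, hmax⟩⟩
  have hdvr : IsDiscreteValuationRing R :=
    ((IsDiscreteValuationRing.TFAE R hnotfield).out 0 4).mpr hprinc
  exact ⟨hdom, hdvr, (IsDiscreteValuationRing.irreducible_iff_uniformizer _).mpr hmax⟩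

end LocalPrincipal

section UnitDiscr

variable {D : Type*} [CommRing D] [IsLocalRing D] {S : Type*} [CommRing S] [Algebra D S]
  [Module.Finite D S] [Module.Free D S] {ι : Type*} [Fintype ι] [DecidableEq ι]

attribute [local instance] Ideal.Quotient.field

/-- The discriminant commutes with reduction modulo the maximal ideal. -/
theorem discr_basisQuotient (b : Module.Basis ι D S) :
    Algebra.discr (D ⧸ maximalIdeal D) (basisQuotient b) =
      Ideal.Quotient.mk (maximalIdeal D) (Algebra.discr D b) := by
  rw [Algebra.discr_def, Algebra.discr_def, RingHom.map_det]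
  congr 1
  ext i j
  simp only [Algebra.traceMatrix_apply, Algebra.traceForm_apply, RingHom.mapMatrix_apply,
    Matrix.map_apply, basisQuotient_apply, ← map_mul, Algebra.trace_quotient_mk]

/-- The closed fibre of a finite free algebra with unit discriminant over a local ring is
reduced. -/
theorem isReduced_quotient_of_isUnit_discr (b : Module.Basis ι D S)
    (hd : IsUnit (Algebra.discr D b)) :
    IsReduced (S ⧸ Ideal.map (algebraMap D S) (maximalIdeal D)) := by
  have : Module.Finite (D ⧸ maximalIdeal D) (S ⧸ Ideal.map (algebraMap D S) (maximalIdeal D)) :=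
    Module.Finite.of_restrictScalars_finite D _ _
  refine isReduced_of_discr_ne_zero (basisQuotient b) ?_
  rw [discr_basisQuotient, Ne, Ideal.Quotient.eq_zero_iff_mem, mem_maximalIdeal, mem_nonunits_iff,
    not_not]
  exact hd

/-- **Killing lemma.** In a finite free algebra `S` with unit discriminant over the local ring
`D`, every element `a` of a proper ideal `𝔫` is killed modulo `𝔪_D S` by an element outside
`𝔫`. -/
theorem exists_notMem_mul_mem (b : Module.Basis ι D S) (hd : IsUnit (Algebra.discr D b))
    (n : Ideal S) (hn : n ≠ ⊤) {a : S} (ha : a ∈ n) :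
    ∃ s, s ∉ n ∧ s * a ∈ Ideal.map (algebraMap D S) (maximalIdeal D) := by
  have hfin : Module.Finite (D ⧸ maximalIdeal D)
      (S ⧸ Ideal.map (algebraMap D S) (maximalIdeal D)) :=
    Module.Finite.of_restrictScalars_finite D _ _
  have hart : IsArtinianRing (S ⧸ Ideal.map (algebraMap D S) (maximalIdeal D)) :=
    IsArtinianRing.of_finite (D ⧸ maximalIdeal D) _
  have hred := isReduced_quotient_of_isUnit_discr b hd
  set I := Ideal.map (algebraMap D S) (maximalIdeal D) with hI
  obtain ⟨k, y', hy'⟩ := IsArtinian.exists_pow_succ_smul_dvd (Ideal.Quotient.mk I a) (1 : S ⧸ I)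
  obtain ⟨y, rfl⟩ := Ideal.Quotient.mk_surjective y'
  rw [smul_eq_mul, smul_eq_mul, mul_one, Nat.succ_eq_add_one] at hy'
  have h1 : Ideal.Quotient.mk I a ^ k * (1 - Ideal.Quotient.mk I a * Ideal.Quotient.mk I y) = 0 := by
    calc Ideal.Quotient.mk I a ^ k * (1 - Ideal.Quotient.mk I a * Ideal.Quotient.mk I y)
        = Ideal.Quotient.mk I a ^ k -
            Ideal.Quotient.mk I a ^ (k + 1) * Ideal.Quotient.mk I y := by ring
      _ = 0 := by rw [hy', sub_self]
  have hnil : (Ideal.Quotient.mk I (a * (1 - a * y))) ^ (k + 1) = 0 := by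
    calc (Ideal.Quotient.mk I (a * (1 - a * y))) ^ (k + 1)
        = (Ideal.Quotient.mk I a ^ k *
            (1 - Ideal.Quotient.mk I a * Ideal.Quotient.mk I y)) *
          (Ideal.Quotient.mk I a *
            (1 - Ideal.Quotient.mk I a * Ideal.Quotient.mk I y) ^ k) := by
          rw [map_mul, mul_pow, map_sub, map_one, map_mul]; ring
      _ = 0 := by rw [h1, zero_mul]
  have hzero : Ideal.Quotient.mk I (a * (1 - a * y)) = 0 := IsReduced.eq_zero _ ⟨k + 1, hnil⟩
  refine ⟨1 - a * y, fun hmem => hn ?_, ?_⟩
  · rw [Ideal.eq_top_iff_one]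
    have : (1 : S) = (1 - a * y) + a * y := by ring
    rw [this]
    exact n.add_mem hmem (n.mul_mem_right _ ha)
  · rw [mul_comm, ← Ideal.Quotient.eq_zero_iff_mem]
    exact hzero

variable (Sn : Type*) [CommRing Sn] [Algebra S Sn] [Algebra D Sn] [IsScalarTower D S Sn]

/-- **Unramifiedness of the closed fibre.** For a prime `𝔫 ⊇ 𝔪_D S` of a finite free algebra with
unit discriminant, the maximal ideal of `S_𝔫` is generated by `𝔪_D`. -/
theorem maximalIdeal_localization_eq_map (b : Module.Basis ι D S)
    (hd : IsUnit (Algebra.discr D b)) (n : Ideal S) [n.IsPrime]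
    (hle : Ideal.map (algebraMap D S) (maximalIdeal D) ≤ n) [IsLocalization.AtPrime Sn n]
    (h : IsLocalRing Sn := IsLocalization.AtPrime.isLocalRing Sn n) :
    maximalIdeal Sn = Ideal.map (algebraMap D Sn) (maximalIdeal D) := by
  rw [← IsLocalization.AtPrime.map_eq_maximalIdeal n Sn, IsScalarTower.algebraMap_eq D S Sn,
    ← Ideal.map_map]
  apply le_antisymm
  · rw [Ideal.map_le_iff_le_comap]
    intro a ha
    obtain ⟨s, hs, hsa⟩ := exists_notMem_mul_mem b hd n (Ideal.IsPrime.ne_top ‹_›) ha
    have hunit : IsUnit (algebraMap S Sn s) :=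
      IsLocalization.map_units Sn (⟨s, hs⟩ : n.primeCompl)
    rw [Ideal.mem_comap]
    have hmem : algebraMap S Sn (s * a) ∈
        Ideal.map (algebraMap S Sn) (Ideal.map (algebraMap D S) (maximalIdeal D)) :=
      Ideal.mem_map_of_mem _ hsa
    rw [map_mul] at hmem
    exact (Ideal.unit_mul_mem_iff_mem _ hunit).mp hmem
  · exact Ideal.map_mono hle

end UnitDiscr

section OverDVR

variable {D : Type*} [CommRing D] [IsDomain D] [IsLocalRing D] [IsNoetherianRing D]
  {S : Type*} [CommRing S] [Algebra D S] [Module.Finite D S] [Module.Free D S]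
  {ι : Type*} [Fintype ι] [DecidableEq ι] {t : D}

omit [IsLocalRing D] [IsNoetherianRing D] [Module.Finite D S] in
/-- A nonzero element of the base domain is a non-zero-divisor of a free algebra. -/
theorem algebraMap_mem_nonZeroDivisors_of_free (ht0 : t ≠ 0) :
    algebraMap D S t ∈ nonZeroDivisors S := by
  rw [mem_nonZeroDivisors_iff_right]
  intro x hx
  rw [mul_comm, ← Algebra.smul_def] at hx
  exact (smul_eq_zero.mp hx).resolve_left ht0

variable (Sn : Type*) [CommRing Sn] [Algebra S Sn] [Algebra D Sn] [IsScalarTower D S Sn]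

/-- **(P3-DVR)** Let `D` be a discrete valuation ring with uniformiser `t` and `S` a finite free
`D`-algebra with unit discriminant. For every prime `𝔫` of `S` containing `t`, the localisation
`S_𝔫` is a discrete valuation ring with uniformiser `t`: the closed fibre of `S` over `D` is
unramified. -/
theorem isDiscreteValuationRing_localization (b : Module.Basis ι D S)
    (hd : IsUnit (Algebra.discr D b)) (ht : maximalIdeal D = Ideal.span {t}) (ht0 : t ≠ 0)
    (n : Ideal S) [n.IsPrime] (htn : algebraMap D S t ∈ n) [IsLocalization.AtPrime Sn n] :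
    ∃ (_ : IsDomain Sn), IsDiscreteValuationRing Sn ∧ Irreducible (algebraMap D Sn t) := by
  have hloc : IsLocalRing Sn := IsLocalization.AtPrime.isLocalRing Sn n
  have hSnoeth : IsNoetherianRing S := IsNoetherianRing.of_finite D S
  have hnoeth : IsNoetherianRing Sn := IsLocalization.isNoetherianRing n.primeCompl Sn inferInstance
  have hle : Ideal.map (algebraMap D S) (maximalIdeal D) ≤ n := by
    rw [ht, Ideal.map_span, Set.image_singleton, Ideal.span_le, Set.singleton_subset_iff]
    exact htn
  have hmax : maximalIdeal Sn = Ideal.span {algebraMap D Sn t} := by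
    rw [maximalIdeal_localization_eq_map Sn b hd n hle, ht, Ideal.map_span, Set.image_singleton]
  have hnzd : algebraMap D Sn t ∈ nonZeroDivisors Sn := by
    rw [IsScalarTower.algebraMap_apply D S Sn]
    exact IsLocalization.map_nonZeroDivisors_le n.primeCompl Sn
      (Submonoid.mem_map_of_mem _ (algebraMap_mem_nonZeroDivisors_of_free ht0))
  exact isDiscreteValuationRing_of_maximalIdeal_eq_span hmax hnzd

/-- **(P3-DVR), valuation form.** Let `D` be a discrete valuation ring with uniformiser `t`, `S` a
finite free `D`-algebra with unit discriminant and `ψ : S → O` a ring homomorphism to a local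
domain `O` centred over `t = 0`, such that every element of `O` is a fraction of elements of
`ψ(S)`. Then the maximal ideal of `O` is generated by (the image of) `t`. -/
theorem maximalIdeal_eq_span_of_isUnit_discr {O : Type*} [CommRing O] [IsDomain O]
    [IsLocalRing O] (b : Module.Basis ι D S) (hd : IsUnit (Algebra.discr D b))
    (ht : maximalIdeal D = Ideal.span {t}) (ht0 : t ≠ 0) (ψ : S →+* O)
    (htO : ψ (algebraMap D S t) ∈ maximalIdeal O)
    (hgen : ∀ x : O, ∃ a c : S, ψ c ≠ 0 ∧ x * ψ c = ψ a) :
    maximalIdeal O = Ideal.span {ψ (algebraMap D S t)} := by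
  classical
  set n : Ideal S := Ideal.comap ψ (maximalIdeal O) with hn
  have hnprime : n.IsPrime := Ideal.comap_isPrime ψ _
  have htn : algebraMap D S t ∈ n := htO
  let Sn := Localization.AtPrime n
  obtain ⟨hdom, hdvr, hirr⟩ := isDiscreteValuationRing_localization Sn b hd ht ht0 n htn
  -- the extension of `ψ` to the localisation
  have hunits : ∀ y : n.primeCompl, IsUnit (ψ y) := fun y => by
    have h1 : (y : S) ∉ n := y.2
    have h2 : ψ y ∉ maximalIdeal O := fun h => h1 h
    by_contra hnu
    exact h2 ((mem_maximalIdeal _).mpr hnu)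
  let ψn : Sn →+* O := IsLocalization.lift hunits
  have hψn : ∀ s : S, ψn (algebraMap S Sn s) = ψ s := fun s => IsLocalization.lift_eq hunits s
  set T : O := ψ (algebraMap D S t) with hT
  have hτ : ψn (algebraMap D Sn t) = T := by
    rw [IsScalarTower.algebraMap_apply D S Sn, hψn]
  apply le_antisymm
  · intro x hx
    by_cases hx0 : x = 0
    · rw [hx0]; exact Ideal.zero_mem _
    obtain ⟨a, c, hc, hxc⟩ := hgen x
    have ha : ψ a ≠ 0 := by
      rw [← hxc]; exact mul_ne_zero hx0 hc
    have ha' : algebraMap S Sn a ≠ 0 := fun h => ha (by rw [← hψn, h, map_zero])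
    have hc' : algebraMap S Sn c ≠ 0 := fun h => hc (by rw [← hψn, h, map_zero])
    obtain ⟨i, u, hu⟩ := IsDiscreteValuationRing.eq_unit_mul_pow_irreducible ha' hirr
    obtain ⟨j, w, hw⟩ := IsDiscreteValuationRing.eq_unit_mul_pow_irreducible hc' hirr
    have hau : ψ a = ψn u * T ^ i := by
      rw [← hψn, hu, map_mul, map_pow, hτ]
    have hcw : ψ c = ψn w * T ^ j := by
      rw [← hψn, hw, map_mul, map_pow, hτ]
    have hu' : IsUnit (ψn u) := u.isUnit.map ψn
    have hw' : IsUnit (ψn w) := w.isUnit.map ψn
    have hTi : T ^ i ≠ 0 := fun h => ha (by rw [hau, h, mul_zero])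
    have hTj : T ^ j ≠ 0 := fun h => hc (by rw [hcw, h, mul_zero])
    rw [hau, hcw] at hxc
    rcases le_or_gt i j with hij | hij
    · -- then `x` divides a unit: impossible
      exfalso
      obtain ⟨m, rfl⟩ := Nat.exists_eq_add_of_le hij
      have h1 : T ^ i * (x * (ψn w * T ^ m)) = T ^ i * ψn u := by
        calc T ^ i * (x * (ψn w * T ^ m)) = x * (ψn w * T ^ (i + m)) := by rw [pow_add]; ring
          _ = ψn u * T ^ i := hxc
          _ = T ^ i * ψn u := mul_comm _ _
      have h2 : x * (ψn w * T ^ m) = ψn u := mul_left_cancel₀ hTi h1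
      have : IsUnit x := isUnit_of_mul_isUnit_left (h2 ▸ hu')
      exact ((mem_maximalIdeal x).mp hx) this
    · obtain ⟨m, rfl⟩ := Nat.exists_eq_add_of_lt hij
      have h1 : T ^ j * (x * ψn w) = T ^ j * (ψn u * T ^ (m + 1)) := by
        calc T ^ j * (x * ψn w) = x * (ψn w * T ^ j) := by ring
          _ = ψn u * T ^ (j + m + 1) := hxc
          _ = T ^ j * (ψn u * T ^ (m + 1)) := by
            rw [show j + m + 1 = j + (m + 1) by ring, pow_add]; ring
      have h2 : x * ψn w = ψn u * T ^ (m + 1) := mul_left_cancel₀ hTj h1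
      obtain ⟨w', hw'2⟩ := hw'.exists_right_inv
      rw [Ideal.mem_span_singleton]
      refine ⟨ψn u * T ^ m * w', ?_⟩
      calc x = x * (ψn w * w') := by rw [hw'2, mul_one]
        _ = (x * ψn w) * w' := by ring
        _ = T * (ψn u * T ^ m * w') := by rw [h2]; ring
  · rw [Ideal.span_le, Set.singleton_subset_iff]
    exact htO

/-- **(P3-DVR), valuation-subring form.** A valuation subring `𝒪` of a field `E` generated (as a
field) by the image of `S`, containing that image and centred over `t = 0`, has maximal ideal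
generated by `t`. -/
theorem valuationSubring_maximalIdeal_eq_span {E : Type*} [Field E] (𝒪 : ValuationSubring E)
    (b : Module.Basis ι D S) (hd : IsUnit (Algebra.discr D b))
    (ht : maximalIdeal D = Ideal.span {t}) (ht0 : t ≠ 0) (ψ : S →+* E) (hS : ∀ s, ψ s ∈ 𝒪)
    (htO : 𝒪.valuation (ψ (algebraMap D S t)) < 1)
    (hgen : ∀ x : E, ∃ a c : S, ψ c ≠ 0 ∧ x * ψ c = ψ a) :
    maximalIdeal 𝒪 = Ideal.span {(⟨ψ (algebraMap D S t), hS _⟩ : 𝒪)} := by
  let ψ' : S →+* 𝒪 := ψ.codRestrict 𝒪.toSubring hS
  have hψ' : ∀ s, ((ψ' s : 𝒪) : E) = ψ s := fun s => rfl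
  have h := maximalIdeal_eq_span_of_isUnit_discr (O := 𝒪) b hd ht ht0 ψ'
    ((𝒪.valuation_lt_one_iff _).mpr htO)
    (fun x => by
      obtain ⟨a, c, hc, hxc⟩ := hgen (x : E)
      refine ⟨a, c, fun h0 => hc ?_, Subtype.ext ?_⟩
      · rw [← hψ', h0]; rfl
      · simpa [hψ'] using hxc)
  exact h

end OverDVR

end Fermat.Agent.S18.Purity
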