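import Mathlib
import Fermat.Agent.S24.Ord
import Fermat.Agent.S18.Purity.EtaleFibre

/-!
# (P3-DVR) in the prelude `Place` language

If `S` is a finite free algebra with unit discriminant over a discrete valuation ring `D` with
uniformiser `t`, and `ψ : S → F` maps to a function field generated by `ψ(S)`, then every place of
`F` which is regular on `ψ(S)` and at which `t` vanishes has `ord (t) = 1`.
-/

namespace Fermat.Agent.S18.Purity

open AlgebraicCurve IsLocalRing

variable {K : Type*} {F : Type*} [Field K] [Field F] [Algebra K F]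
variable {D : Type*} [CommRing D] [IsDomain D] [IsLocalRing D] [IsNoetherianRing D]
  {S : Type*} [CommRing S] [Algebra D S] [Module.Finite D S] [Module.Free D S]
  {ι : Type*} [Fintype ι] [DecidableEq ι] {t : D}

/-- **(P3-DVR), place form.** -/
theorem place_ord_eq_one_of_isUnit_discr (P : Place K F) (b : Module.Basis ι D S)
    (hd : IsUnit (Algebra.discr D b)) (ht : maximalIdeal D = Ideal.span {t}) (ht0 : t ≠ 0)
    (ψ : S →+* F) (hS : ∀ s, P.adicValuation (ψ s) ≤ 1)
    (htP : P.adicValuation (ψ (algebraMap D S t)) < 1)
    (hgen : ∀ x : F, ∃ a c : S, ψ c ≠ 0 ∧ x * ψ c = ψ a) :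
    P.ord (ψ (algebraMap D S t)) = 1 := by
  have hmem : ∀ s, ψ s ∈ P.toValuationSubring := fun s =>
    (Fermat.Agent.S24.Ord.mem_iff P _).mpr (hS s)
  have htO : P.toValuationSubring.valuation (ψ (algebraMap D S t)) < 1 := by
    have h1 : (⟨ψ (algebraMap D S t), hmem _⟩ : P.toValuationSubring) ∈
        maximalIdeal P.toValuationSubring :=
      (Fermat.Agent.S24.Ord.mem_maximalIdeal_iff P _).mpr htP
    exact (P.toValuationSubring.valuation_lt_one_iff _).mp h1
  have hmax := valuationSubring_maximalIdeal_eq_span P.toValuationSubring b hd ht ht0 ψ hmem htO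
    hgen
  have hirr : Irreducible (⟨ψ (algebraMap D S t), hmem _⟩ : P.toValuationSubring) :=
    (IsDiscreteValuationRing.irreducible_iff_uniformizer _).mpr hmax
  have hval := P.adicValuation_coe_irreducible hirr
  rw [Place.ord]
  simp only at hval
  rw [hval, WithZero.log_exp]
  ring

end Fermat.Agent.S18.Purity
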