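import Mathlib
import Fermat.Agent.S18.Purity.RegularLocal

/-!
# The pointwise unit criterion on `B = W[X]_(l, X)` (block C3, criterion (PW))

* `exists_root_mem_maximalIdeal`: a polynomial over a valuation subring `A` of an algebraically
  closed field with a unit coefficient and constant coefficient in `𝔪_A` has a root in `𝔪_A`.
* `evalAt`: evaluation `B → A'` at a point `x ∈ 𝔪_{A'}` of a local ring `A'` along `φ : W → A'`.
* `isUnit_iff_isUnit_evalAt`: `d ∈ B` is a unit iff its value at one (any) such point is a unit,
  for `φ` a local homomorphism (e.g. the value in the residue field at `X = 0`).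
* `isUnit_of_pointwise`: `d` is a unit as soon as `l ∤ d` and `d` vanishes at no point of the open
  unit disc `𝔪_A`.
-/

namespace Fermat.Agent.S18.Purity

open Polynomial IsLocalRing

section Root

variable {L : Type*} [Field L] [IsAlgClosed L] (A : ValuationSubring L)

/-- A polynomial over a valuation subring `A` of an algebraically closed field, with some unit
coefficient and constant coefficient in the maximal ideal, has a root in the maximal ideal. -/
theorem exists_root_mem_maximalIdeal (p : A[X]) (h0 : p.coeff 0 ∈ maximalIdeal A)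
    (hunit : ∃ i, IsUnit (p.coeff i)) : ∃ x : A, x ∈ maximalIdeal A ∧ p.eval x = 0 := by
  classical
  by_contra hcon
  push Not at hcon
  have hinj : Function.Injective (A.subtype : A →+* L) := Subtype.val_injective
  set P : L[X] := p.map A.subtype with hP
  have hp0 : p ≠ 0 := by
    rintro rfl
    obtain ⟨i, hi⟩ := hunit
    simp at hi
  have hP0 : P ≠ 0 := (Polynomial.map_ne_zero_iff hinj).mpr hp0
  have key : ∀ a : A, (a : L) ∈ P.roots → p.eval a = 0 := by
    intro a ha
    apply hinj
    have := (mem_roots hP0).mp ha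
    rw [IsRoot.def, hP, eval_map] at this
    rw [map_zero, ← this]
    exact (eval₂_at_apply A.subtype a).symm
  -- every root of `P` has its inverse in `A`
  have hroots : ∀ x ∈ P.roots, x⁻¹ ∈ A := by
    intro x hx
    rcases A.mem_or_inv_mem x with hxA | hxA
    · have hroot : p.eval (⟨x, hxA⟩ : A) = 0 := key ⟨x, hxA⟩ hx
      have hnot : (⟨x, hxA⟩ : A) ∉ maximalIdeal A := fun h => hcon _ h hroot
      have hu : IsUnit (⟨x, hxA⟩ : A) := by
        by_contra hnu
        exact hnot ((mem_maximalIdeal _).mpr hnu)
      obtain ⟨y, hy⟩ := hu.exists_right_inv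
      have h1 : x * (y : L) = 1 := by
        have := congrArg (A.subtype) hy
        simpa using this
      have h2 : (y : L) = x⁻¹ := eq_inv_of_mul_eq_one_right h1
      rw [← h2]
      exact y.2
    · exact hxA
  have hne : ∀ x ∈ P.roots, x ≠ 0 := by
    intro x hx hx0
    subst hx0
    exact hcon 0 (Ideal.zero_mem _) (key 0 hx)
  -- factorisation of `P`
  have hsplit : P = C P.leadingCoeff * (P.roots.map fun a => X - C a).prod :=
    (IsAlgClosed.splits P).eq_prod_roots
  have hfac : ∀ x ∈ P.roots, (X - C x : L[X]) = C (-x) * (1 - C x⁻¹ * X) := by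
    intro x hx
    have := hne x hx
    rw [mul_sub, mul_one, ← mul_assoc, ← C_mul, neg_mul, mul_inv_cancel₀ this]
    simp only [C_neg, map_one, neg_mul, one_mul, sub_neg_eq_add]
    ring
  have hprod : (P.roots.map fun a => X - C a).prod =
      C (P.roots.map fun a => -a).prod * (P.roots.map fun a => (1 - C a⁻¹ * X : L[X])).prod := by
    rw [← Multiset.prod_hom _ (C : L →+* L[X]), Multiset.map_map, ← Multiset.prod_map_mul]
    exact congrArg Multiset.prod (Multiset.map_congr rfl fun x hx => by simpa using hfac x hx)
  set G : L[X] := (P.roots.map fun a => (1 - C a⁻¹ * X : L[X])).prod with hG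
  have hGlift : G ∈ lifts A.subtype := by
    apply Subsemiring.multiset_prod_mem
    intro f hf
    obtain ⟨x, hx, rfl⟩ := Multiset.mem_map.mp hf
    rw [mem_lifts]
    refine ⟨1 - C ⟨x⁻¹, hroots x hx⟩ * X, ?_⟩
    simp
  obtain ⟨g, hg⟩ := (mem_lifts _).mp hGlift
  have hG0 : G.eval 0 = 1 := by
    rw [hG, eval_multiset_prod, Multiset.map_map]
    have : (P.roots.map ((fun q : L[X] => q.eval 0) ∘ fun a => (1 - C a⁻¹ * X : L[X]))) =
        P.roots.map fun _ => (1 : L) := by
      refine Multiset.map_congr rfl fun x _ => ?_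
      simp
    rw [this, Multiset.map_const', Multiset.prod_replicate, one_pow]
  have hPeq : P = C (P.eval 0) * G := by
    have h1 : P = C (P.leadingCoeff * (P.roots.map fun a => -a).prod) * G := by
      rw [C_mul, mul_assoc, ← hprod]
      exact hsplit
    have h2 : P.eval 0 = P.leadingCoeff * (P.roots.map fun a => -a).prod := by
      conv_lhs => rw [h1]
      rw [eval_mul, eval_C, hG0, mul_one]
    rw [h2]
    exact h1
  have hpeq : p = C (p.coeff 0) * g := by
    apply Polynomial.map_injective _ hinj
    rw [Polynomial.map_mul, hg, map_C, ← hP, hPeq]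
    congr 2
    rw [hP, eval_map, eval₂_at_zero, coeff_zero_eq_eval_zero]
  obtain ⟨i, hi⟩ := hunit
  rw [hpeq, coeff_C_mul] at hi
  have : p.coeff 0 * g.coeff i ∈ maximalIdeal A := Ideal.mul_mem_right _ _ h0
  exact ((mem_maximalIdeal _).mp this) hi

end Root

section EvalAt

variable {W : Type*} [CommRing W] [IsLocalRing W]
variable (B : Type*) [CommRing B] [Algebra W[X] B] [IsLocalization.AtPrime B (closedPoint W)]
variable {A' : Type*} [CommRing A'] [IsLocalRing A'] (φ : W →+* A') (x : A')
  (hx : x ∈ maximalIdeal A')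

omit [IsLocalRing W] in
/-- The value of a polynomial at a point of the maximal ideal is congruent to the image of its
constant coefficient. -/
theorem eval₂_sub_coeff_zero_mem (hx : x ∈ maximalIdeal A') (p : W[X]) :
    p.eval₂ φ x - φ (p.coeff 0) ∈ maximalIdeal A' := by
  have h : p.eval₂ φ x = x * (divX p).eval₂ φ x + φ (p.coeff 0) := by
    conv_lhs => rw [← X_mul_divX_add p]
    rw [eval₂_add, eval₂_mul, eval₂_X, eval₂_C]
  rw [h, add_sub_cancel_right]
  exact Ideal.mul_mem_right _ _ hx

theorem isUnit_eval₂_of_notMem_closedPoint (hx : x ∈ maximalIdeal A') {p : W[X]}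
    (hp : p ∉ closedPoint W) : IsUnit (p.eval₂ φ x) := by
  rw [mem_closedPoint, not_not] at hp
  have h1 : IsUnit (φ (p.coeff 0)) := hp.map φ
  by_contra hnu
  have h2 : p.eval₂ φ x ∈ maximalIdeal A' := (mem_maximalIdeal _).mpr hnu
  have h3 : φ (p.coeff 0) ∈ maximalIdeal A' := by
    have := Ideal.sub_mem _ h2 (eval₂_sub_coeff_zero_mem φ x hx p)
    simpa using this
  exact ((mem_maximalIdeal _).mp h3) h1

/-- Evaluation `B → A'` at a point `x` of the maximal ideal of a local ring `A'`, along a ring
homomorphism `φ : W → A'`. -/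
noncomputable def evalAt : B →+* A' :=
  IsLocalization.lift (M := (closedPoint W).primeCompl) (g := eval₂RingHom φ x)
    (fun y => by
      rw [coe_eval₂RingHom]
      exact isUnit_eval₂_of_notMem_closedPoint φ x hx y.2)

@[simp] theorem evalAt_algebraMap (p : W[X]) :
    evalAt B φ x hx (algebraMap W[X] B p) = p.eval₂ φ x := by
  rw [evalAt, IsLocalization.lift_eq]
  rfl

theorem evalAt_mk' (p : W[X]) (s : (closedPoint W).primeCompl) :
    evalAt B φ x hx (IsLocalization.mk' B p s) * (s : W[X]).eval₂ φ x = p.eval₂ φ x := by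
  rw [← evalAt_algebraMap B φ x hx (s : W[X]), ← map_mul, IsLocalization.mk'_spec,
    evalAt_algebraMap]

/-- For a local homomorphism `φ : W → A'`, an element of `B` is a unit iff its value at a point
of the open unit disc is a unit. (With `A'` the residue field of `W` and `x = 0`: iff its value at
the closed point is nonzero.) -/
theorem isUnit_iff_isUnit_evalAt [IsLocalHom φ] (d : B) :
    IsUnit d ↔ IsUnit (evalAt B φ x hx d) := by
  refine ⟨fun h => h.map _, fun h => ?_⟩
  obtain ⟨p, s, rfl⟩ := IsLocalization.exists_mk'_eq (closedPoint W).primeCompl d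
  rw [IsLocalization.AtPrime.isUnit_mk'_iff B (closedPoint W)]
  intro hp
  rw [SetLike.mem_coe, mem_closedPoint] at hp
  have h1 : IsUnit (p.eval₂ φ x) := by
    rw [← evalAt_mk' B φ x hx p s]
    exact h.mul (isUnit_eval₂_of_notMem_closedPoint φ x hx s.2)
  have h2 : φ (p.coeff 0) ∈ maximalIdeal A' :=
    (mem_maximalIdeal _).mpr fun hu => hp (isUnit_of_map_unit φ _ hu)
  have h3 : p.eval₂ φ x ∈ maximalIdeal A' := by
    have := Ideal.add_mem _ (eval₂_sub_coeff_zero_mem φ x hx p) h2
    simpa using this
  exact ((mem_maximalIdeal _).mp h3) h1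

/-- The value of an element of `B` at the closed point, in the residue field of `W`. -/
noncomputable def evalClosed (W : Type*) [CommRing W] [IsLocalRing W] (B : Type*) [CommRing B]
    [Algebra W[X] B] [IsLocalization.AtPrime B (closedPoint W)] : B →+* ResidueField W :=
  evalAt B (residue W) 0 (Ideal.zero_mem _)

@[simp] theorem evalClosed_algebraMap (p : W[X]) :
    evalClosed W B (algebraMap W[X] B p) = residue W (p.coeff 0) := by
  rw [evalClosed, evalAt_algebraMap, eval₂_at_zero]

theorem evalClosed_eq_residue_evalZero (d : B) :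
    evalClosed W B d = residue W (evalZero W B d) := by
  obtain ⟨p, s, rfl⟩ := IsLocalization.exists_mk'_eq (closedPoint W).primeCompl d
  have hs : IsUnit (residue W ((s : W[X]).coeff 0)) := by
    have := s.2
    rw [Ideal.mem_primeCompl_iff, mem_closedPoint, not_not] at this
    exact this.map _
  apply hs.mul_left_injective
  simp only
  rw [← evalClosed_algebraMap B (s : W[X]), ← map_mul, IsLocalization.mk'_spec,
    evalClosed_algebraMap, evalClosed_algebraMap, ← evalZero_algebraMap B (s : W[X]), ← map_mul,
    ← map_mul, IsLocalization.mk'_spec, evalZero_algebraMap]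

/-- An element of `B` is a unit iff its value at the closed point is nonzero. -/
theorem isUnit_iff_evalClosed_ne_zero (d : B) : IsUnit d ↔ evalClosed W B d ≠ 0 := by
  rw [evalClosed, isUnit_iff_isUnit_evalAt B (residue W) 0 (Ideal.zero_mem _) d,
    isUnit_iff_ne_zero]

end EvalAt

section Pointwise

variable {W : Type*} [CommRing W] [IsDomain W] [IsDiscreteValuationRing W]
variable (B : Type*) [CommRing B] [Algebra W[X] B] [IsLocalization.AtPrime B (closedPoint W)]
variable {L : Type*} [Field L] [IsAlgClosed L] (A : ValuationSubring L) (φ : W →+* A)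

/-- **Pointwise criterion (PW).** Let `W` be a discrete valuation ring with uniformiser `l`,
`A` a valuation subring of an algebraically closed field with `φ : W → A`, `φ l ∈ 𝔪_A`. An element
`d` of `B = W[X]_(l, X)` is a unit as soon as (a) `l ∤ d` and (b) `d` does not vanish at any point
`x ∈ 𝔪_A` of the open unit disc. -/
theorem isUnit_of_pointwise {l : W} (hl : Irreducible l) (hφ : φ l ∈ maximalIdeal A) (d : B)
    (ha : ¬ algebraMap W[X] B (C l) ∣ d)
    (hb : ∀ (x : A) (hx : x ∈ maximalIdeal A), evalAt B φ x hx d ≠ 0) : IsUnit d := by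
  obtain ⟨p, s, rfl⟩ := IsLocalization.exists_mk'_eq (closedPoint W).primeCompl d
  rw [IsLocalization.AtPrime.isUnit_mk'_iff B (closedPoint W)]
  intro hp
  rw [SetLike.mem_coe, mem_closedPoint] at hp
  -- `l` divides the constant coefficient
  have h0 : l ∣ p.coeff 0 := by
    have : p.coeff 0 ∈ maximalIdeal W := (mem_maximalIdeal _).mpr hp
    rwa [hl.maximalIdeal_eq, Ideal.mem_span_singleton] at this
  -- but not all coefficients
  have hnd : ¬ C l ∣ p := by
    intro hdvd
    apply ha
    rw [IsLocalization.mk'_eq_mul_mk'_one]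
    exact Dvd.dvd.mul_right (map_dvd (algebraMap W[X] B) hdvd) _
  rw [C_dvd_iff_dvd_coeff] at hnd
  push Not at hnd
  obtain ⟨i, hi⟩ := hnd
  have hui : IsUnit (p.coeff i) := by
    by_contra hnu
    have : p.coeff i ∈ maximalIdeal W := (mem_maximalIdeal _).mpr hnu
    rw [hl.maximalIdeal_eq, Ideal.mem_span_singleton] at this
    exact hi this
  -- a root in the open unit disc
  obtain ⟨x, hx, hroot⟩ := exists_root_mem_maximalIdeal A (p.map φ)
    (by
      obtain ⟨w, hw⟩ := h0
      rw [coeff_map, hw, map_mul]
      exact Ideal.mul_mem_right _ _ hφ)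
    ⟨i, by rw [coeff_map]; exact hui.map φ⟩
  rw [eval_map] at hroot
  have hmul := evalAt_mk' B φ x hx p s
  rw [hroot] at hmul
  have hsu : IsUnit ((s : W[X]).eval₂ φ x) := isUnit_eval₂_of_notMem_closedPoint φ x hx s.2
  exact hb x hx ((hsu.mul_left_eq_zero).mp hmul)

end Pointwise

end Fermat.Agent.S18.Purity
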